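import Mathlib

/-!
# S48 (Deligne–Serre) / pieces FI-1a, FI-1b (helper468): the commutant of a non-scalar matrix

* `exists_eq_add_smul` : a `2 × 2` matrix commuting with a non-scalar matrix `g` is `a + b g`;
* `commutant_commute` : exact shape of `FI.CommutantStatement`;
* `torus_fibre` : exact shape of `FI.TorusFibreStatement`.
-/

namespace Fermat.Agent.S48.H468

open Matrix

section Field

variable {F : Type*} [Field F]

lemma commute_entries {x g : Matrix (Fin 2) (Fin 2) F} (h : Commute x g) :
    x 0 1 * g 1 0 = g 0 1 * x 1 0 ∧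
    g 0 1 * (x 0 0 - x 1 1) = x 0 1 * (g 0 0 - g 1 1) ∧
    g 1 0 * (x 0 0 - x 1 1) = x 1 0 * (g 0 0 - g 1 1) := by
  have h' : x * g = g * x := h
  have h00 := congrFun (congrFun h' 0) 0
  have h01 := congrFun (congrFun h' 0) 1
  have h10 := congrFun (congrFun h' 1) 0
  simp only [Matrix.mul_apply, Fin.sum_univ_two] at h00 h01 h10
  refine ⟨?_, ?_, ?_⟩
  · linear_combination h00
  · linear_combination h01
  · linear_combination -h10

/-- a matrix commuting with a non-scalar `2 × 2` matrix `g` is a polynomial `a + b g` in `g`. -/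
lemma exists_eq_add_smul {g x : Matrix (Fin 2) (Fin 2) F}
    (hg : ∀ c : F, g ≠ c • (1 : Matrix (Fin 2) (Fin 2) F)) (h : Commute x g) :
    ∃ a b : F, x = a • (1 : Matrix (Fin 2) (Fin 2) F) + b • g := by
  obtain ⟨e1, e2, e3⟩ := commute_entries h
  have key : ∀ b : F, x 0 1 = b * g 0 1 → x 1 0 = b * g 1 0 →
      x 0 0 - x 1 1 = b * (g 0 0 - g 1 1) →
      x = (x 0 0 - b * g 0 0) • (1 : Matrix (Fin 2) (Fin 2) F) + b • g := by
    intro b h1 h2 h3
    ext i j
    fin_cases i <;> fin_cases j
    · simp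
    · simp [h1]
    · simp [h2]
    · simp only [Fin.mk_one, Fin.isValue, Matrix.add_apply, Matrix.smul_apply, Matrix.one_apply_eq,
        smul_eq_mul, mul_one]
      linear_combination -h3
  by_cases h01 : g 0 1 = 0
  · by_cases h10 : g 1 0 = 0
    · have hd : g 0 0 - g 1 1 ≠ 0 := by
        intro hd
        apply hg (g 0 0)
        ext i j
        fin_cases i <;> fin_cases j
        · simp
        · simp [h01]
        · simp [h10]
        · simp only [Fin.mk_one, Fin.isValue, Matrix.smul_apply, Matrix.one_apply_eq, smul_eq_mul,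
            mul_one]
          linear_combination -hd
      refine ⟨_, _, key ((x 0 0 - x 1 1) / (g 0 0 - g 1 1)) ?_ ?_ ?_⟩
      · rw [h01, mul_zero]
        rw [h01, zero_mul] at e2
        exact (mul_eq_zero.mp e2.symm).resolve_right hd
      · rw [h10, mul_zero]
        rw [h10, zero_mul] at e3
        exact (mul_eq_zero.mp e3.symm).resolve_right hd
      · field_simp
    · refine ⟨_, _, key (x 1 0 / g 1 0) ?_ ?_ ?_⟩
      · field_simp
        linear_combination e1
      · field_simp
      · field_simp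
        linear_combination e3
  · refine ⟨_, _, key (x 0 1 / g 0 1) ?_ ?_ ?_⟩
    · field_simp
    · field_simp
      linear_combination -e1
    · field_simp
      linear_combination e2

/-- **FI-1a.** Matrices commuting with a non-scalar `2 × 2` matrix commute with each other. -/
theorem commutant_commute (g x y : Matrix (Fin 2) (Fin 2) F)
    (hg : ∀ c : F, g ≠ c • (1 : Matrix (Fin 2) (Fin 2) F)) (hx : Commute x g)
    (hy : Commute y g) : Commute x y := by
  obtain ⟨a, b, rfl⟩ := exists_eq_add_smul hg hx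
  obtain ⟨a', b', rfl⟩ := exists_eq_add_smul hg hy
  have h1 : ∀ c : F, Commute (c • (1 : Matrix (Fin 2) (Fin 2) F)) (a' • 1 + b' • g) :=
    fun c => (Commute.one_left _).smul_left c
  have h2 : Commute g (a' • (1 : Matrix (Fin 2) (Fin 2) F) + b' • g) :=
    ((Commute.one_right g).smul_right a').add_right ((Commute.refl g).smul_right b')
  exact (h1 a).add_left (h2.smul_left b)

lemma trace_add_smul (a b : F) (g : Matrix (Fin 2) (Fin 2) F) :
    (a • (1 : Matrix (Fin 2) (Fin 2) F) + b • g).trace = 2 * a + b * g.trace := by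
  simp [Matrix.trace_fin_two]
  ring

lemma det_add_smul (a b : F) (g : Matrix (Fin 2) (Fin 2) F) :
    (a • (1 : Matrix (Fin 2) (Fin 2) F) + b • g).det =
      a ^ 2 + a * b * g.trace + b ^ 2 * g.det := by
  simp [Matrix.det_fin_two, Matrix.trace_fin_two]
  ring

/-- **FI-1b.** In the commutant of a non-scalar matrix `g` with non-zero discriminant, at most
two elements have a given trace and determinant. -/
theorem torus_fibre (h2 : (2 : F) ≠ 0) (g h₁ h₂ h₃ : Matrix (Fin 2) (Fin 2) F)
    (hg : ∀ c : F, g ≠ c • (1 : Matrix (Fin 2) (Fin 2) F))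
    (hdisc : g.trace ^ 2 - 4 * g.det ≠ 0)
    (c₁ : Commute h₁ g) (c₂ : Commute h₂ g) (c₃ : Commute h₃ g)
    (t12 : h₁.trace = h₂.trace) (d12 : h₁.det = h₂.det)
    (t13 : h₁.trace = h₃.trace) (d13 : h₁.det = h₃.det) :
    h₁ = h₂ ∨ h₁ = h₃ ∨ h₂ = h₃ := by
  obtain ⟨a₁, b₁, rfl⟩ := exists_eq_add_smul hg c₁
  obtain ⟨a₂, b₂, rfl⟩ := exists_eq_add_smul hg c₂
  obtain ⟨a₃, b₃, rfl⟩ := exists_eq_add_smul hg c₃
  simp only [trace_add_smul, det_add_smul] at t12 d12 t13 d13
  -- equal `b` implies equal matrices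
  have heq : ∀ a b a' b' : F, 2 * a + b * g.trace = 2 * a' + b' * g.trace → b = b' →
      a • (1 : Matrix (Fin 2) (Fin 2) F) + b • g = a' • 1 + b' • g := by
    intro a b a' b' ht hb
    subst hb
    have : a = a' := by
      have : 2 * (a - a') = 0 := by linear_combination ht
      exact sub_eq_zero.mp ((mul_eq_zero.mp this).resolve_left h2)
    rw [this]
  -- the squares of the `b`'s agree
  have hsq : ∀ a b a' b' : F, 2 * a + b * g.trace = 2 * a' + b' * g.trace →
      a ^ 2 + a * b * g.trace + b ^ 2 * g.det = a' ^ 2 + a' * b' * g.trace + b' ^ 2 * g.det →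
      b ^ 2 = b' ^ 2 := by
    intro a b a' b' ht hd
    have h4 : (4 : F) ≠ 0 := by
      have : (4 : F) = 2 * 2 := by norm_num
      rw [this]; exact mul_ne_zero h2 h2
    have : (g.trace ^ 2 - 4 * g.det) * (b ^ 2 - b' ^ 2) = 0 := by
      linear_combination (2 * a + b * g.trace + 2 * a' + b' * g.trace) * ht - 4 * hd
    exact sub_eq_zero.mp ((mul_eq_zero.mp this).resolve_left hdisc)
  have s12 := hsq _ _ _ _ t12 d12
  have s13 := hsq _ _ _ _ t13 d13
  rcases sq_eq_sq_iff_eq_or_eq_neg.mp s12 with e12 | e12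
  · exact Or.inl (heq _ _ _ _ t12 e12)
  · rcases sq_eq_sq_iff_eq_or_eq_neg.mp s13 with e13 | e13
    · exact Or.inr (Or.inl (heq _ _ _ _ t13 e13))
    · refine Or.inr (Or.inr (heq _ _ _ _ (t12.symm.trans t13) ?_))
      have : -b₂ = -b₃ := e12.symm.trans e13
      exact neg_injective this

end Field

end Fermat.Agent.S48.H468
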