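import Mathlib

/-!
# S48 (Deligne–Serre) / piece FI-1c (helper468): non-scalar elements of discriminant zero

A non-scalar element of `GL₂(𝔽_ℓ)` with `trace² = 4 det` has order divisible by `ℓ`
(`disc_order`, the exact shape of `FI.DiscStatement`).
-/

namespace Fermat.Agent.S48.H468

open Matrix

section Field

variable {F : Type*} [Field F]

/-- Cayley–Hamilton for `2 × 2` matrices. -/
lemma cayley_two (M : Matrix (Fin 2) (Fin 2) F) :
    M * M = M.trace • M - M.det • (1 : Matrix (Fin 2) (Fin 2) F) := by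
  ext i j
  fin_cases i <;> fin_cases j <;>
    simp [Matrix.mul_apply, Fin.sum_univ_two, Matrix.trace_fin_two, Matrix.det_fin_two] <;> ring

/-- powers of `λ + N` with `N² = 0`. -/
lemma pow_succ_of_sq_zero {M N : Matrix (Fin 2) (Fin 2) F} {lam : F}
    (hM : M = lam • (1 : Matrix (Fin 2) (Fin 2) F) + N) (hN : N * N = 0) (k : ℕ) :
    M ^ (k + 1) = lam ^ (k + 1) • (1 : Matrix (Fin 2) (Fin 2) F) +
      (((k + 1 : ℕ) : F) * lam ^ k) • N := by
  induction k with
  | zero => simp [hM]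
  | succ k ih =>
    rw [pow_succ, ih]
    conv_lhs => rw [hM]
    simp only [add_mul, mul_add, smul_mul_assoc, mul_smul_comm, one_mul, mul_one, hN, smul_zero,
      add_zero]
    push_cast
    module

/-- if `M = λ + N` with `N ≠ 0`, `N² = 0`, `λ ≠ 0` and `M ^ (k+1) = 1` then `k + 1 = 0` in `F`. -/
lemma natCast_eq_zero_of_pow_eq_one {M N : Matrix (Fin 2) (Fin 2) F} {lam : F}
    (hM : M = lam • (1 : Matrix (Fin 2) (Fin 2) F) + N) (hN : N * N = 0) (hN0 : N ≠ 0)
    (hlam : lam ≠ 0) {k : ℕ} (hk : M ^ (k + 1) = 1) : ((k + 1 : ℕ) : F) = 0 := by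
  rw [pow_succ_of_sq_zero hM hN] at hk
  by_contra hne
  have hc : ((k + 1 : ℕ) : F) * lam ^ k ≠ 0 := mul_ne_zero hne (pow_ne_zero _ hlam)
  -- then `N` is scalar, hence zero
  have hNs : N = ((1 - lam ^ (k + 1)) / (((k + 1 : ℕ) : F) * lam ^ k)) •
      (1 : Matrix (Fin 2) (Fin 2) F) := by
    have h1 : (((k + 1 : ℕ) : F) * lam ^ k) • N =
        (1 - lam ^ (k + 1)) • (1 : Matrix (Fin 2) (Fin 2) F) := by
      rw [sub_smul, one_smul, eq_sub_iff_add_eq, add_comm]
      exact hk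
    have h2 := congrArg (fun X => (((k + 1 : ℕ) : F) * lam ^ k)⁻¹ • X) h1
    simp only [smul_smul, inv_mul_cancel₀ hc, one_smul] at h2
    rw [h2, div_eq_inv_mul]
  apply hN0
  have h3 := hN
  rw [hNs] at h3 ⊢
  simp only [smul_mul_assoc, mul_smul_comm, one_mul, smul_smul] at h3
  have h4 := congrFun (congrFun h3 0) 0
  simp only [Matrix.smul_apply, Matrix.one_apply_eq, smul_eq_mul, mul_one,
    Matrix.zero_apply] at h4
  have h5 := mul_self_eq_zero.mp h4
  rw [h5, zero_smul]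

end Field

/-- **FI-1c.** A non-scalar element of `GL₂(𝔽_ℓ)` with zero discriminant has order divisible
by `ℓ`. -/
theorem disc_order (ℓ : ℕ) [Fact ℓ.Prime] (g : GL (Fin 2) (ZMod ℓ))
    (hg : ∀ c : ZMod ℓ, (g : Matrix (Fin 2) (Fin 2) (ZMod ℓ)) ≠ c • 1)
    (hd : (g : Matrix (Fin 2) (Fin 2) (ZMod ℓ)).trace ^ 2 -
      4 * (g : Matrix (Fin 2) (Fin 2) (ZMod ℓ)).det = 0) :
    ℓ ∣ orderOf g := by
  have hℓ : ℓ.Prime := Fact.out
  have hdet : (g : Matrix (Fin 2) (Fin 2) (ZMod ℓ)).det ≠ 0 := by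
    have := Matrix.det_ne_zero_of_right_inverse
      (show (g : Matrix (Fin 2) (Fin 2) (ZMod ℓ)) *
        ((g⁻¹ : GL (Fin 2) (ZMod ℓ)) : Matrix (Fin 2) (Fin 2) (ZMod ℓ)) = 1 by
        rw [← Units.val_mul, mul_inv_cancel, Units.val_one])
    exact this
  -- a double root `lam` of the characteristic polynomial
  obtain ⟨lam, hl1, hl2⟩ : ∃ lam : ZMod ℓ,
      2 * lam = (g : Matrix (Fin 2) (Fin 2) (ZMod ℓ)).trace ∧
      lam ^ 2 = (g : Matrix (Fin 2) (Fin 2) (ZMod ℓ)).det := by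
    by_cases h2 : (2 : ZMod ℓ) = 0
    · have hℓ2 : ℓ = 2 := by
        have : ((2 : ℕ) : ZMod ℓ) = 0 := by exact_mod_cast h2
        have hdvd := (ZMod.natCast_eq_zero_iff 2 ℓ).mp this
        exact (Nat.prime_dvd_prime_iff_eq hℓ Nat.prime_two).mp hdvd
      refine ⟨(g : Matrix (Fin 2) (Fin 2) (ZMod ℓ)).det, ?_, ?_⟩
      · have h4 : (4 : ZMod ℓ) = 0 := by
          have : (4 : ZMod ℓ) = 2 * 2 := by norm_num
          rw [this, h2, mul_zero]
        rw [h4, zero_mul, sub_zero] at hd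
        rw [h2, zero_mul]
        exact (pow_eq_zero_iff (by norm_num)).mp hd |>.symm
      · subst hℓ2
        exact ZMod.pow_card _
    · refine ⟨(g : Matrix (Fin 2) (Fin 2) (ZMod ℓ)).trace / 2, ?_, ?_⟩
      · field_simp
      · have h4 : (4 : ZMod ℓ) ≠ 0 := by
          have : (4 : ZMod ℓ) = 2 * 2 := by norm_num
          rw [this]; exact mul_ne_zero h2 h2
        field_simp
        linear_combination hd
  have hlam : lam ≠ 0 := by
    rintro rfl
    apply hdet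
    rw [← hl2]; ring
  -- the nilpotent part
  have hM : (g : Matrix (Fin 2) (Fin 2) (ZMod ℓ)) =
      lam • (1 : Matrix (Fin 2) (Fin 2) (ZMod ℓ)) +
        ((g : Matrix (Fin 2) (Fin 2) (ZMod ℓ)) - lam • 1) := by abel
  have hN0 : (g : Matrix (Fin 2) (Fin 2) (ZMod ℓ)) - lam • 1 ≠ 0 := fun h =>
    hg lam (sub_eq_zero.mp h)
  have hN : ((g : Matrix (Fin 2) (Fin 2) (ZMod ℓ)) - lam • 1) *
      ((g : Matrix (Fin 2) (Fin 2) (ZMod ℓ)) - lam • 1) = 0 := by
    simp only [sub_mul, mul_sub, smul_mul_assoc, mul_smul_comm, one_mul, mul_one, smul_sub,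
      smul_smul]
    rw [cayley_two, ← hl1, ← hl2]
    have e : (2 * lam) • (g : Matrix (Fin 2) (Fin 2) (ZMod ℓ)) = lam • (g : Matrix _ _ _) +
        lam • (g : Matrix _ _ _) := by rw [two_mul, add_smul]
    rw [e, pow_two]
    abel
  -- the order
  have hpos : 0 < orderOf g := orderOf_pos g
  obtain ⟨k, hk⟩ := Nat.exists_eq_succ_of_ne_zero hpos.ne'
  have hpow : (g : Matrix (Fin 2) (Fin 2) (ZMod ℓ)) ^ (k + 1) = 1 := by
    rw [← Units.val_pow_eq_pow_val, ← Nat.succ_eq_add_one, ← hk, pow_orderOf_eq_one,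
      Units.val_one]
  have h0 := natCast_eq_zero_of_pow_eq_one hM hN hN0 hlam hpow
  rw [hk]
  exact (ZMod.natCast_eq_zero_iff (k + 1) ℓ).mp h0

end Fermat.Agent.S48.H468
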