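import Mathlib

/-!
# S48 (Deligne–Serre) / piece FI-3a (helper468): subgroups of `GL₂(𝔽_ℓ)` of order divisible by `ℓ`

A subgroup `G ≤ GL₂(𝔽_ℓ)` of order divisible by `ℓ` which stabilises no line has at least
`ℓ² (ℓ - 1)` elements (`transvection_card_le`, the exact shape of `FI.TransvectionStatement`
with `FI.NoStableLine` unfolded).

Proof: an element `u` of order `ℓ` is `1 + N` with `N² = 0`, `N ≠ 0`; it fixes a vector `v`;
some `g ∈ G` moves the line of `v`; in the basis `(v, g v)` the elements `u` and `g u g⁻¹` are an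
upper and a lower unipotent matrix, and the products `T(a) L(b) T(c)` (`b ≠ 0`) are pairwise
distinct elements of `G`.
-/

namespace Fermat.Agent.S48.H468

open Matrix

section Field

variable {F : Type*} [Field F]

/-- a nilpotent `2 × 2` matrix over a field has square zero. -/
lemma sq_eq_zero_of_pow_eq_zero {N : Matrix (Fin 2) (Fin 2) F} {k : ℕ} (h : N ^ k = 0) :
    N * N = 0 := by
  have hN : IsNilpotent N := ⟨k, h⟩
  have h1 := Matrix.isNilpotent_charpoly_sub_pow_of_isNilpotent hN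
  have h2 : N.charpoly = Polynomial.X ^ 2 := by
    have := h1.eq_zero
    simpa [sub_eq_zero] using this
  have h3 := Matrix.aeval_self_charpoly N
  rw [h2] at h3
  simpa [pow_two] using h3

/-- upper unipotent matrices -/
def upperT (a : F) : GL (Fin 2) F :=
  Matrix.GeneralLinearGroup.mkOfDetNeZero !![1, a; 0, 1] (by simp [Matrix.det_fin_two])

/-- lower unipotent matrices -/
def lowerT (b : F) : GL (Fin 2) F :=
  Matrix.GeneralLinearGroup.mkOfDetNeZero !![1, 0; b, 1] (by simp [Matrix.det_fin_two])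

@[simp] lemma coe_upperT (a : F) :
    ((upperT a : GL (Fin 2) F) : Matrix (Fin 2) (Fin 2) F) = !![1, a; 0, 1] := rfl

@[simp] lemma coe_lowerT (b : F) :
    ((lowerT b : GL (Fin 2) F) : Matrix (Fin 2) (Fin 2) F) = !![1, 0; b, 1] := rfl

lemma upperT_add (a a' : F) : upperT (a + a') = upperT a * upperT a' := by
  apply Units.ext
  simp only [coe_upperT, Units.val_mul, Matrix.mul_fin_two]
  ext i j
  fin_cases i <;> fin_cases j <;> simp [add_comm]

lemma lowerT_add (b b' : F) : lowerT (b + b') = lowerT b * lowerT b' := by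
  apply Units.ext
  simp only [coe_lowerT, Units.val_mul, Matrix.mul_fin_two]
  ext i j
  fin_cases i <;> fin_cases j <;> simp

lemma upperT_zero : upperT (0 : F) = 1 := by
  apply Units.ext
  simp only [coe_upperT, Units.val_one]
  ext i j
  fin_cases i <;> fin_cases j <;> simp

lemma lowerT_zero : lowerT (0 : F) = 1 := by
  apply Units.ext
  simp only [coe_lowerT, Units.val_one]
  ext i j
  fin_cases i <;> fin_cases j <;> simp

lemma upperT_nsmul (a : F) (n : ℕ) : upperT (n • a) = upperT a ^ n := by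
  induction n with
  | zero => simp [upperT_zero]
  | succ n ih => rw [succ_nsmul, upperT_add, ih, pow_succ]

lemma lowerT_nsmul (b : F) (n : ℕ) : lowerT (n • b) = lowerT b ^ n := by
  induction n with
  | zero => simp [lowerT_zero]
  | succ n ih => rw [succ_nsmul, lowerT_add, ih, pow_succ]

/-- the product `T(a) L(b) T(c)`. -/
lemma coe_tlt (a b c : F) :
    ((upperT a * lowerT b * upperT c : GL (Fin 2) F) : Matrix (Fin 2) (Fin 2) F) =
      !![1 + a * b, (1 + a * b) * c + a; b, b * c + 1] := by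
  simp only [coe_upperT, coe_lowerT, Units.val_mul, Matrix.mul_fin_two]
  ext i j
  fin_cases i <;> fin_cases j <;> simp

lemma tlt_injective {a b c a' b' c' : F} (hb : b ≠ 0)
    (h : upperT a * lowerT b * upperT c = upperT a' * lowerT b' * upperT c') :
    a = a' ∧ b = b' ∧ c = c' := by
  have h' := congrArg (fun g : GL (Fin 2) F => (g : Matrix (Fin 2) (Fin 2) F)) h
  simp only [coe_tlt] at h'
  have h00 : 1 + a * b = 1 + a' * b' := congrFun (congrFun h' 0) 0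
  have h10 : b = b' := congrFun (congrFun h' 1) 0
  have h11 : b * c + 1 = b' * c' + 1 := congrFun (congrFun h' 1) 1
  subst h10
  refine ⟨?_, rfl, ?_⟩
  · exact mul_right_cancel₀ hb (add_left_cancel h00)
  · exact mul_left_cancel₀ hb (add_right_cancel h11)

/-- the matrix with columns `w₁`, `w₂`. -/
def colMat (w₁ w₂ : Fin 2 → F) : Matrix (Fin 2) (Fin 2) F := !![w₁ 0, w₂ 0; w₁ 1, w₂ 1]

lemma det_colMat (w₁ w₂ : Fin 2 → F) : (colMat w₁ w₂).det = w₁ 0 * w₂ 1 - w₁ 1 * w₂ 0 := by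
  simp [colMat, Matrix.det_fin_two]
  ring

lemma mul_colMat (M : Matrix (Fin 2) (Fin 2) F) (w₁ w₂ : Fin 2 → F) :
    M * colMat w₁ w₂ = colMat (M *ᵥ w₁) (M *ᵥ w₂) := by
  ext i j
  fin_cases i <;> fin_cases j <;>
    simp [colMat, Matrix.mul_apply, mulVec, dotProduct, Fin.sum_univ_two]

/-- Cramer's rule in dimension two. -/
lemma cramer_two {w₁ w₂ : Fin 2 → F} (hD : w₁ 0 * w₂ 1 - w₁ 1 * w₂ 0 ≠ 0) (w : Fin 2 → F) :
    ∃ x y : F, w = x • w₁ + y • w₂ := by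
  refine ⟨(w 0 * w₂ 1 - w 1 * w₂ 0) / (w₁ 0 * w₂ 1 - w₁ 1 * w₂ 0),
    (w₁ 0 * w 1 - w₁ 1 * w 0) / (w₁ 0 * w₂ 1 - w₁ 1 * w₂ 0), ?_⟩
  funext i
  fin_cases i
  · simp only [Fin.zero_eta, Fin.isValue, Pi.add_apply, Pi.smul_apply, smul_eq_mul]
    rw [div_mul_eq_mul_div, div_mul_eq_mul_div, ← add_div, eq_div_iff hD]
    ring
  · simp only [Fin.mk_one, Fin.isValue, Pi.add_apply, Pi.smul_apply, smul_eq_mul]
    rw [div_mul_eq_mul_div, div_mul_eq_mul_div, ← add_div, eq_div_iff hD]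
    ring

lemma indep_two {w₁ w₂ : Fin 2 → F} (hD : w₁ 0 * w₂ 1 - w₁ 1 * w₂ 0 ≠ 0) {x y : F}
    (h : x • w₁ + y • w₂ = 0) : x = 0 ∧ y = 0 := by
  have h0 := congrFun h 0
  have h1 := congrFun h 1
  simp only [Pi.add_apply, Pi.smul_apply, smul_eq_mul, Pi.zero_apply] at h0 h1
  have hx : x * (w₁ 0 * w₂ 1 - w₁ 1 * w₂ 0) = 0 := by
    linear_combination w₂ 1 * h0 - w₂ 0 * h1
  have hy : y * (w₁ 0 * w₂ 1 - w₁ 1 * w₂ 0) = 0 := by
    linear_combination w₁ 0 * h1 - w₁ 1 * h0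
  exact ⟨(mul_eq_zero.mp hx).resolve_right hD, (mul_eq_zero.mp hy).resolve_right hD⟩

lemma det_ne_zero_of_not_smul {v v' : Fin 2 → F} (hv : v ≠ 0) (h : ∀ c : F, v' ≠ c • v) :
    v 0 * v' 1 - v 1 * v' 0 ≠ 0 := by
  intro hD
  by_cases h0 : v 0 = 0
  · have h1 : v 1 ≠ 0 := by
      intro h1
      apply hv
      funext i
      fin_cases i
      · exact h0
      · exact h1
    apply h (v' 1 / v 1)
    funext i
    fin_cases i
    · simp only [Fin.zero_eta, Fin.isValue, Pi.smul_apply, smul_eq_mul]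
      rw [h0] at hD ⊢
      have : v 1 * v' 0 = 0 := by linear_combination -hD
      rcases mul_eq_zero.mp this with h2 | h2
      · exact absurd h2 h1
      · rw [h2]; ring
    · simp only [Fin.mk_one, Fin.isValue, Pi.smul_apply, smul_eq_mul]
      field_simp
  · apply h (v' 0 / v 0)
    funext i
    fin_cases i
    · simp only [Fin.zero_eta, Fin.isValue, Pi.smul_apply, smul_eq_mul]
      field_simp
    · simp only [Fin.mk_one, Fin.isValue, Pi.smul_apply, smul_eq_mul]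
      field_simp
      linear_combination hD

/-- A nonzero matrix of square zero killing `w₁` maps `w₂` to a nonzero multiple of `w₁`. -/
lemma nilpotent_normal_form {N : Matrix (Fin 2) (Fin 2) F} (hN0 : N ≠ 0) (hN2 : N * N = 0)
    {w₁ w₂ : Fin 2 → F} (hD : w₁ 0 * w₂ 1 - w₁ 1 * w₂ 0 ≠ 0) (hNw : N *ᵥ w₁ = 0) :
    ∃ α : F, α ≠ 0 ∧ N *ᵥ w₂ = α • w₁ := by
  obtain ⟨x, y, hxy⟩ := cramer_two hD (N *ᵥ w₂)
  have h1 : N *ᵥ (N *ᵥ w₂) = 0 := by rw [mulVec_mulVec, hN2, zero_mulVec]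
  have h2 : (y * x) • w₁ + (y * y) • w₂ = 0 := by
    have : N *ᵥ (N *ᵥ w₂) = y • (x • w₁ + y • w₂) := by
      conv_lhs => rw [hxy]
      rw [mulVec_add, mulVec_smul, mulVec_smul, hNw, smul_zero, zero_add, hxy]
    rw [h1] at this
    rw [this, smul_add, smul_smul, smul_smul]
  have hy : y = 0 := by
    have := (indep_two hD h2).2
    exact mul_self_eq_zero.mp this
  rw [hy, zero_smul, add_zero] at hxy
  refine ⟨x, ?_, hxy⟩
  rintro rfl
  rw [zero_smul] at hxy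
  apply hN0
  have h3 : N * colMat w₁ w₂ = 0 := by
    rw [mul_colMat, hNw, hxy]
    ext i j
    fin_cases i <;> fin_cases j <;> simp [colMat]
  have hdet : IsUnit (colMat w₁ w₂).det := by
    rw [det_colMat]
    exact isUnit_iff_ne_zero.mpr hD
  have := congrArg (· * (colMat w₁ w₂)⁻¹) h3
  simpa [Matrix.mul_assoc, Matrix.mul_nonsing_inv _ hdet] using this

/-- `(1 + N) H = H T(α)` when `N w₁ = 0`, `N w₂ = α w₁`, `H = (w₁ | w₂)`. -/
lemma one_add_mul_colMat_upper {N : Matrix (Fin 2) (Fin 2) F} {w₁ w₂ : Fin 2 → F} {α : F}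
    (h1 : N *ᵥ w₁ = 0) (h2 : N *ᵥ w₂ = α • w₁) :
    (1 + N) * colMat w₁ w₂ = colMat w₁ w₂ * !![1, α; 0, 1] := by
  rw [add_mul, one_mul, mul_colMat, h1, h2]
  ext i j
  fin_cases i <;> fin_cases j <;> simp [colMat, Matrix.mul_apply, Fin.sum_univ_two] <;> ring

/-- `(1 + N) H = H L(β)` when `N w₂ = 0`, `N w₁ = β w₂`, `H = (w₁ | w₂)`. -/
lemma one_add_mul_colMat_lower {N : Matrix (Fin 2) (Fin 2) F} {w₁ w₂ : Fin 2 → F} {β : F}
    (h1 : N *ᵥ w₂ = 0) (h2 : N *ᵥ w₁ = β • w₂) :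
    (1 + N) * colMat w₁ w₂ = colMat w₁ w₂ * !![1, 0; β, 1] := by
  rw [add_mul, one_mul, mul_colMat, h1, h2]
  ext i j
  fin_cases i <;> fin_cases j <;> simp [colMat, Matrix.mul_apply, Fin.sum_univ_two] <;> ring

end Field

section ZModl

variable {ℓ : ℕ} [Fact ℓ.Prime]

lemma nsmul_val_div (a α : ZMod ℓ) (hα : α ≠ 0) : (a / α).val • α = a := by
  rw [nsmul_eq_mul, ZMod.natCast_zmod_val]
  field_simp

/-- A subgroup of `GL₂(𝔽_ℓ)` containing (conjugates by a common `h` of) an upper and a lower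
unipotent element has at least `ℓ² (ℓ - 1)` elements. -/
lemma card_ge_of_unipotents (G : Subgroup (GL (Fin 2) (ZMod ℓ))) (h : GL (Fin 2) (ZMod ℓ))
    {α β : ZMod ℓ} (hα : α ≠ 0) (hβ : β ≠ 0)
    (hU : h * upperT α * h⁻¹ ∈ G) (hL : h * lowerT β * h⁻¹ ∈ G) :
    ℓ ^ 2 * (ℓ - 1) ≤ Nat.card G := by
  have hUa : ∀ a : ZMod ℓ, h * upperT a * h⁻¹ ∈ G := by
    intro a
    rw [← nsmul_val_div a α hα, upperT_nsmul, ← conj_pow]
    exact G.pow_mem hU _
  have hLb : ∀ b : ZMod ℓ, h * lowerT b * h⁻¹ ∈ G := by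
    intro b
    rw [← nsmul_val_div b β hβ, lowerT_nsmul, ← conj_pow]
    exact G.pow_mem hL _
  have hmem : ∀ (a b c : ZMod ℓ), h * (upperT a * lowerT b * upperT c) * h⁻¹ ∈ G := by
    intro a b c
    have : h * (upperT a * lowerT b * upperT c) * h⁻¹ =
        (h * upperT a * h⁻¹) * (h * lowerT b * h⁻¹) * (h * upperT c * h⁻¹) := by group
    rw [this]
    exact G.mul_mem (G.mul_mem (hUa a) (hLb b)) (hUa c)
  let Φ : ZMod ℓ × (ZMod ℓ)ˣ × ZMod ℓ → G := fun x =>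
    ⟨h * (upperT x.1 * lowerT (x.2.1 : ZMod ℓ) * upperT x.2.2) * h⁻¹, hmem _ _ _⟩
  have hΦ : Function.Injective Φ := by
    rintro ⟨a, b, c⟩ ⟨a', b', c'⟩ hx
    have h1 : h * (upperT a * lowerT (b : ZMod ℓ) * upperT c) * h⁻¹ =
        h * (upperT a' * lowerT (b' : ZMod ℓ) * upperT c') * h⁻¹ := congrArg Subtype.val hx
    have h2 : upperT a * lowerT (b : ZMod ℓ) * upperT c =
        upperT a' * lowerT (b' : ZMod ℓ) * upperT c' :=
      mul_left_cancel (mul_right_cancel h1)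
    obtain ⟨ha, hb, hc⟩ := tlt_injective b.ne_zero h2
    have hb' : b = b' := Units.ext hb
    rw [ha, hb', hc]
  have hcard := Nat.card_le_card_of_injective Φ hΦ
  refine le_trans (le_of_eq ?_) hcard
  rw [Nat.card_prod, Nat.card_prod, Nat.card_eq_fintype_card (α := ZMod ℓ),
    Nat.card_eq_fintype_card (α := (ZMod ℓ)ˣ), ZMod.card, ZMod.card_units]
  ring

/-- **FI-3a.** A subgroup of `GL₂(𝔽_ℓ)` of order divisible by `ℓ` which stabilises no line has
at least `ℓ² (ℓ - 1)` elements. -/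
theorem transvection_card_le (ℓ : ℕ) [Fact ℓ.Prime] (G : Subgroup (GL (Fin 2) (ZMod ℓ)))
    (hdiv : ℓ ∣ Nat.card G)
    (hns : ∀ v : Fin 2 → ZMod ℓ, v ≠ 0 →
      ∃ g ∈ G, ∀ c : ZMod ℓ, (g : Matrix (Fin 2) (Fin 2) (ZMod ℓ)) *ᵥ v ≠ c • v) :
    ℓ ^ 2 * (ℓ - 1) ≤ Nat.card G := by
  have hℓ : ℓ.Prime := Fact.out
  obtain ⟨u, hu⟩ := exists_prime_orderOf_dvd_card' ℓ hdiv
  have hUord : orderOf (u : GL (Fin 2) (ZMod ℓ)) = ℓ := by
    rw [Subgroup.orderOf_coe]; exact hu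
  obtain ⟨U, hUG⟩ := u
  simp only at hUord
  -- the nilpotent part
  have hUN : (U : Matrix (Fin 2) (Fin 2) (ZMod ℓ)) =
      1 + ((U : Matrix (Fin 2) (Fin 2) (ZMod ℓ)) - 1) := by abel
  have hN0 : (U : Matrix (Fin 2) (Fin 2) (ZMod ℓ)) - 1 ≠ 0 := by
    intro h
    have h1 : U = 1 := Units.ext (by rw [Units.val_one]; exact sub_eq_zero.mp h)
    rw [h1, orderOf_one] at hUord
    exact hℓ.one_lt.ne hUord
  have hNl : ((U : Matrix (Fin 2) (Fin 2) (ZMod ℓ)) - 1) ^ ℓ = 0 := by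
    have hUl : U ^ ℓ = 1 := by
      have := pow_orderOf_eq_one U
      rwa [hUord] at this
    rw [sub_pow_char_of_commute ℓ (Commute.one_right _), one_pow, ← Units.val_pow_eq_pow_val,
      hUl, Units.val_one, sub_self]
  have hN2 := sq_eq_zero_of_pow_eq_zero hNl
  -- a fixed vector
  obtain ⟨v, hv, hNv⟩ : ∃ v : Fin 2 → ZMod ℓ, v ≠ 0 ∧
      ((U : Matrix (Fin 2) (Fin 2) (ZMod ℓ)) - 1) *ᵥ v = 0 := by
    by_contra hcon0
    have hcon : ∀ w : Fin 2 → ZMod ℓ, w ≠ 0 →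
        ((U : Matrix (Fin 2) (Fin 2) (ZMod ℓ)) - 1) *ᵥ w ≠ 0 :=
      fun w hw h => hcon0 ⟨w, hw, h⟩
    apply hN0
    ext i j
    by_contra hij
    have hcol : ((U : Matrix (Fin 2) (Fin 2) (ZMod ℓ)) - 1) *ᵥ (Pi.single j 1) ≠ 0 := by
      intro h0
      apply hij
      have := congrFun h0 i
      simpa using this
    apply hcon _ hcol
    rw [mulVec_mulVec, hN2, zero_mulVec]
  obtain ⟨g, hgG, hg⟩ := hns v hv
  have hD := det_ne_zero_of_not_smul hv hg
  obtain ⟨α, hα, hNv'⟩ := nilpotent_normal_form hN0 hN2 hD hNv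
  -- the conjugate
  have hgg : (g : Matrix (Fin 2) (Fin 2) (ZMod ℓ)) *
      ((g⁻¹ : GL (Fin 2) (ZMod ℓ)) : Matrix (Fin 2) (Fin 2) (ZMod ℓ)) = 1 := by
    rw [← Units.val_mul, mul_inv_cancel, Units.val_one]
  have hgg' : ((g⁻¹ : GL (Fin 2) (ZMod ℓ)) : Matrix (Fin 2) (Fin 2) (ZMod ℓ)) *
      (g : Matrix (Fin 2) (Fin 2) (ZMod ℓ)) = 1 := by
    rw [← Units.val_mul, inv_mul_cancel, Units.val_one]
  have hconj : ((g * U * g⁻¹ : GL (Fin 2) (ZMod ℓ)) : Matrix (Fin 2) (Fin 2) (ZMod ℓ)) =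
      1 + (g : Matrix (Fin 2) (Fin 2) (ZMod ℓ)) *
        ((U : Matrix (Fin 2) (Fin 2) (ZMod ℓ)) - 1) *
        ((g⁻¹ : GL (Fin 2) (ZMod ℓ)) : Matrix (Fin 2) (Fin 2) (ZMod ℓ)) := by
    rw [Units.val_mul, Units.val_mul, mul_sub, sub_mul, mul_one, hgg]
    abel
  have hN'2 : ((g : Matrix (Fin 2) (Fin 2) (ZMod ℓ)) *
        ((U : Matrix (Fin 2) (Fin 2) (ZMod ℓ)) - 1) *
        ((g⁻¹ : GL (Fin 2) (ZMod ℓ)) : Matrix (Fin 2) (Fin 2) (ZMod ℓ))) *
      ((g : Matrix (Fin 2) (Fin 2) (ZMod ℓ)) *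
        ((U : Matrix (Fin 2) (Fin 2) (ZMod ℓ)) - 1) *
        ((g⁻¹ : GL (Fin 2) (ZMod ℓ)) : Matrix (Fin 2) (Fin 2) (ZMod ℓ))) = 0 := by
    have : ∀ A B C : Matrix (Fin 2) (Fin 2) (ZMod ℓ),
        (A * B * C) * (A * B * C) = A * (B * ((C * A) * B)) * C := by
      intro A B C
      simp only [Matrix.mul_assoc]
    rw [this, hgg', one_mul, hN2, mul_zero, zero_mul]
  have hN'0 : (g : Matrix (Fin 2) (Fin 2) (ZMod ℓ)) *
        ((U : Matrix (Fin 2) (Fin 2) (ZMod ℓ)) - 1) *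
        ((g⁻¹ : GL (Fin 2) (ZMod ℓ)) : Matrix (Fin 2) (Fin 2) (ZMod ℓ)) ≠ 0 := by
    intro h0
    apply hN0
    have h1 := congrArg (fun X => ((g⁻¹ : GL (Fin 2) (ZMod ℓ)) :
      Matrix (Fin 2) (Fin 2) (ZMod ℓ)) * X * (g : Matrix (Fin 2) (Fin 2) (ZMod ℓ))) h0
    simp only [mul_zero, zero_mul] at h1
    rw [← h1]
    have : ∀ A B C : Matrix (Fin 2) (Fin 2) (ZMod ℓ),
        C * (A * B * C) * A = (C * A) * B * (C * A) := by
      intro A B C
      simp only [Matrix.mul_assoc]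
    rw [this, hgg', one_mul, mul_one]
  have hN'v' : ((g : Matrix (Fin 2) (Fin 2) (ZMod ℓ)) *
        ((U : Matrix (Fin 2) (Fin 2) (ZMod ℓ)) - 1) *
        ((g⁻¹ : GL (Fin 2) (ZMod ℓ)) : Matrix (Fin 2) (Fin 2) (ZMod ℓ))) *ᵥ
      ((g : Matrix (Fin 2) (Fin 2) (ZMod ℓ)) *ᵥ v) = 0 := by
    rw [mulVec_mulVec, Matrix.mul_assoc, hgg', mul_one, ← mulVec_mulVec, hNv, mulVec_zero]
  have hD' : ((g : Matrix (Fin 2) (Fin 2) (ZMod ℓ)) *ᵥ v) 0 * v 1 -
      ((g : Matrix (Fin 2) (Fin 2) (ZMod ℓ)) *ᵥ v) 1 * v 0 ≠ 0 := by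
    intro h0
    apply hD
    linear_combination -h0
  obtain ⟨β, hβ, hN'v⟩ := nilpotent_normal_form hN'0 hN'2 hD' hN'v'
  -- the base change
  let h : GL (Fin 2) (ZMod ℓ) := Matrix.GeneralLinearGroup.mkOfDetNeZero
    (colMat v ((g : Matrix (Fin 2) (Fin 2) (ZMod ℓ)) *ᵥ v)) (by rw [det_colMat]; exact hD)
  have hh : (h : Matrix (Fin 2) (Fin 2) (ZMod ℓ)) =
      colMat v ((g : Matrix (Fin 2) (Fin 2) (ZMod ℓ)) *ᵥ v) := rfl
  have e1 : U * h = h * upperT α := by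
    apply Units.ext
    rw [Units.val_mul, Units.val_mul, hh, coe_upperT, hUN]
    exact one_add_mul_colMat_upper hNv hNv'
  have e2 : (g * U * g⁻¹) * h = h * lowerT β := by
    apply Units.ext
    rw [Units.val_mul, Units.val_mul (a := h), hh, coe_lowerT, hconj]
    exact one_add_mul_colMat_lower hN'v' hN'v
  have hU : h * upperT α * h⁻¹ ∈ G := by
    rw [← e1, mul_inv_cancel_right]
    exact hUG
  have hL : h * lowerT β * h⁻¹ ∈ G := by
    rw [← e2, mul_inv_cancel_right]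
    exact G.mul_mem (G.mul_mem hgG hUG) (G.inv_mem hgG)
  exact card_ge_of_unipotents G h hα hβ hU hL

end ZModl

end Fermat.Agent.S48.H468
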