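import Fermat.Agent.S48.H468.Fibre
import Fermat.Agent.S48.H468.Transvection
import Fermat.Agent.S48.H468.Commutant
import Fermat.Agent.S48.H468.Disc

/-!
# S48 (Deligne–Serre) / piece FI-4 (helper468): assembly of the finite image lemma

`finiteImage_of : Trichotomy0 → (FI.FiniteImageStatement with the definitions unfolded)`:
for `η < 1/2` and `M` there is `A` such that every `G ≤ GL₂(𝔽_ℓ)` with
"`ℓ ∣ |G|` ⇒ no stable line" and `C(η, M)` has `|G| ≤ A`.  Here `Trichotomy0` is the abstract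
group theoretic piece FI-2 (`FI.TrichotomyStatement` at universe `0`); the matrix pieces FI-1 and
FI-3 are `H468/{Commutant, Disc, Transvection, Fibre}.lean`.
`finiteImage_semisimple_of` is the same for semisimple `G` (stable lines split).
-/

namespace Fermat.Agent.S48.H468

open Matrix

section Count

variable {α β : Type*} [DecidableEq β]

/-- counting through the fibres of a map. -/
lemma card_le_of_fibre_le (S : Finset α) (f : α → β) (P : Finset β) (c : ℕ)
    (hP : ∀ x ∈ S, f x ∈ P) (hfib : ∀ p ∈ P, (S.filter (fun x => f x = p)).card ≤ c) :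
    S.card ≤ c * P.card := by
  classical
  refine (Finset.card_le_mul_card_image S c fun b hb => ?_).trans
    (Nat.mul_le_mul_left c (Finset.card_le_card (Finset.image_subset_iff.mpr hP)))
  obtain ⟨a, ha, rfl⟩ := Finset.mem_image.mp hb
  exact hfib _ (hP a ha)

end Count

section Field

variable {F : Type*} [Field F]

/-- `(trace, det)` of an element of `GL₂`. -/
def td (g : GL (Fin 2) F) : F × F :=
  ((g : Matrix (Fin 2) (Fin 2) F).trace, (g : Matrix (Fin 2) (Fin 2) F).det)

/-- scalar elements of `GL₂`. -/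
def IsScalar (g : GL (Fin 2) F) : Prop :=
  ∃ c : F, (g : Matrix (Fin 2) (Fin 2) F) = c • (1 : Matrix (Fin 2) (Fin 2) F)

lemma not_isScalar_iff {g : GL (Fin 2) F} :
    ¬ IsScalar g ↔ ∀ c : F, (g : Matrix (Fin 2) (Fin 2) F) ≠ c • 1 := by
  simp [IsScalar]

lemma IsScalar.commute {z : GL (Fin 2) F} (hz : IsScalar z) (x : GL (Fin 2) F) :
    Commute z x := by
  obtain ⟨c, hc⟩ := hz
  apply Units.ext
  simp only [Units.val_mul, hc, smul_mul_assoc, one_mul, mul_smul_comm, mul_one]

lemma commute_coe {x y : GL (Fin 2) F} :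
    Commute (x : Matrix (Fin 2) (Fin 2) F) (y : Matrix (Fin 2) (Fin 2) F) ↔ Commute x y := by
  constructor
  · intro h
    apply Units.ext
    simpa only [Units.val_mul] using h.eq
  · intro h
    have := congrArg (fun g : GL (Fin 2) F => (g : Matrix (Fin 2) (Fin 2) F)) h.eq
    simp only [Units.val_mul] at this
    exact this

lemma td_conj (x g : GL (Fin 2) F) : td (x * g * x⁻¹) = td g := by
  have hx : (x : Matrix (Fin 2) (Fin 2) F) *
      ((x⁻¹ : GL (Fin 2) F) : Matrix (Fin 2) (Fin 2) F) = 1 := by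
    rw [← Units.val_mul, mul_inv_cancel, Units.val_one]
  have hx' : ((x⁻¹ : GL (Fin 2) F) : Matrix (Fin 2) (Fin 2) F) *
      (x : Matrix (Fin 2) (Fin 2) F) = 1 := by
    rw [← Units.val_mul, inv_mul_cancel, Units.val_one]
  unfold td
  simp only [Units.val_mul]
  congr 1
  · rw [Matrix.trace_mul_comm, ← Matrix.mul_assoc, hx', one_mul]
  · rw [Matrix.det_mul, Matrix.det_mul, mul_right_comm, ← Matrix.det_mul, hx, Matrix.det_one,
      one_mul]

/-- in the commutant of a non-scalar `g` with non-zero discriminant, fibres of `(tr, det)` have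
at most two elements. -/
lemma card_fibre_commutant_le {ι : Type*} [DecidableEq F] (h2 : (2 : F) ≠ 0)
    {g : GL (Fin 2) F} (hg : ¬ IsScalar g)
    (hd : (g : Matrix (Fin 2) (Fin 2) F).trace ^ 2 - 4 * (g : Matrix (Fin 2) (Fin 2) F).det ≠ 0)
    (e : ι → GL (Fin 2) F) (he : Function.Injective e)
    (S : Finset ι) (hS : ∀ x ∈ S, Commute (e x) g) (p : F × F) :
    (S.filter (fun x => td (e x) = p)).card ≤ 2 := by
  by_contra hcon
  rw [not_le, Finset.two_lt_card] at hcon
  obtain ⟨a, ha, b, hb, c, hc, hab, hac, hbc⟩ := hcon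
  simp only [Finset.mem_filter] at ha hb hc
  have tda : td (e a) = p := ha.2
  have tdb : td (e b) = p := hb.2
  have tdc : td (e c) = p := hc.2
  have e1 := congrArg Prod.fst (tda.trans tdb.symm)
  have e2 := congrArg Prod.snd (tda.trans tdb.symm)
  have e3 := congrArg Prod.fst (tda.trans tdc.symm)
  have e4 := congrArg Prod.snd (tda.trans tdc.symm)
  rcases torus_fibre h2 (g : Matrix (Fin 2) (Fin 2) F) (e a) (e b) (e c)
    (not_isScalar_iff.mp hg) hd
    (commute_coe.mpr (hS a ha.1)) (commute_coe.mpr (hS b hb.1)) (commute_coe.mpr (hS c hc.1))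
    e1 e2 e3 e4 with h | h | h
  · exact hab (he (Units.ext h))
  · exact hac (he (Units.ext h))
  · exact hbc (he (Units.ext h))

end Field

section ZModl

variable {ℓ : ℕ} [Fact ℓ.Prime]

/-- Finset form of `fibre_card_le`. -/
lemma card_fibre_le {ι : Type*} (e : ι → GL (Fin 2) (ZMod ℓ)) (he : Function.Injective e)
    (S : Finset ι) (p : ZMod ℓ × ZMod ℓ) :
    (S.filter (fun x => td (e x) = p)).card ≤ 2 * ℓ ^ 2 := by
  classical
  have h := fibre_card_le ℓ p
  rw [Nat.card_eq_fintype_card, Fintype.card_subtype] at h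
  refine le_trans ?_ h
  rw [← Finset.card_map ⟨e, he⟩]
  refine Finset.card_le_card ?_
  intro x hx
  simp only [Finset.mem_map, Finset.mem_filter, Function.Embedding.coeFn_mk] at hx
  obtain ⟨y, ⟨-, hy⟩, rfl⟩ := hx
  simp only [Finset.mem_filter, Finset.mem_univ, true_and]
  exact hy

end ZModl

section Scalar

variable {F : Type*} [Field F]

lemma isScalar_one : IsScalar (1 : GL (Fin 2) F) := ⟨1, by simp⟩

lemma IsScalar.mul {a b : GL (Fin 2) F} (ha : IsScalar a) (hb : IsScalar b) :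
    IsScalar (a * b) := by
  obtain ⟨c, hc⟩ := ha
  obtain ⟨c', hc'⟩ := hb
  exact ⟨c * c', by simp [hc, hc', smul_smul, mul_comm]⟩

lemma IsScalar.inv {a : GL (Fin 2) F} (ha : IsScalar a) : IsScalar a⁻¹ := by
  obtain ⟨c, hc⟩ := ha
  have h1 : (a : Matrix (Fin 2) (Fin 2) F) *
      ((a⁻¹ : GL (Fin 2) F) : Matrix (Fin 2) (Fin 2) F) = 1 := by
    rw [← Units.val_mul, mul_inv_cancel, Units.val_one]
  rw [hc, smul_mul_assoc, one_mul] at h1
  have hc0 : c ≠ 0 := by
    rintro rfl
    rw [zero_smul] at h1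
    exact zero_ne_one h1
  refine ⟨c⁻¹, ?_⟩
  have h2 := congrArg (fun X => c⁻¹ • X) h1
  simp only [smul_smul, inv_mul_cancel₀ hc0, one_smul] at h2
  exact h2

/-- the subgroup of scalar elements of a subgroup of `GL₂`. -/
def scalarSubgroup (G : Subgroup (GL (Fin 2) F)) : Subgroup G where
  carrier := {g | IsScalar (g : GL (Fin 2) F)}
  one_mem' := isScalar_one
  mul_mem' := fun ha hb => IsScalar.mul ha hb
  inv_mem' := fun ha => IsScalar.inv ha

lemma mem_scalarSubgroup {G : Subgroup (GL (Fin 2) F)} {g : G} :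
    g ∈ scalarSubgroup G ↔ IsScalar (g : GL (Fin 2) F) := Iff.rfl

lemma scalarSubgroup_le_center (G : Subgroup (GL (Fin 2) F)) :
    scalarSubgroup G ≤ Subgroup.center G := by
  intro z hz
  rw [Subgroup.mem_center_iff]
  intro x
  apply Subtype.ext
  simp only [Subgroup.coe_mul]
  exact ((mem_scalarSubgroup.mp hz).commute (x : GL (Fin 2) F)).eq.symm

lemma commute_subgroup {G : Subgroup (GL (Fin 2) F)} {x y : G} :
    Commute x y ↔ Commute (x : GL (Fin 2) F) (y : GL (Fin 2) F) := by
  constructor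
  · intro h
    have := congrArg (fun g : G => (g : GL (Fin 2) F)) h.eq
    simp only [Subgroup.coe_mul] at this
    exact this
  · intro h
    apply Subtype.ext
    simp only [Subgroup.coe_mul]
    exact h.eq

/-- two elements in the same coset of the scalars with the same determinant differ by a sign. -/
lemma eq_or_eq_neg_of_coset {G : Subgroup (GL (Fin 2) F)} {a b : G}
    (h : a⁻¹ * b ∈ scalarSubgroup G)
    (hdet : ((a : GL (Fin 2) F) : Matrix (Fin 2) (Fin 2) F).det =
      ((b : GL (Fin 2) F) : Matrix (Fin 2) (Fin 2) F).det) :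
    ((b : GL (Fin 2) F) : Matrix (Fin 2) (Fin 2) F) = ((a : GL (Fin 2) F) : Matrix _ _ _) ∨
    ((b : GL (Fin 2) F) : Matrix (Fin 2) (Fin 2) F) = -((a : GL (Fin 2) F) : Matrix _ _ _) := by
  obtain ⟨c, hc⟩ := mem_scalarSubgroup.mp h
  have hb : ((b : GL (Fin 2) F) : Matrix (Fin 2) (Fin 2) F) =
      c • ((a : GL (Fin 2) F) : Matrix (Fin 2) (Fin 2) F) := by
    have : (b : GL (Fin 2) F) = (a : GL (Fin 2) F) * ((a⁻¹ * b : G) : GL (Fin 2) F) := by
      simp
    rw [this, Units.val_mul, hc, mul_smul_comm, mul_one]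
  have hdeta : ((a : GL (Fin 2) F) : Matrix (Fin 2) (Fin 2) F).det ≠ 0 := by
    have h1 : ((a : GL (Fin 2) F) : Matrix (Fin 2) (Fin 2) F) *
        (((a : GL (Fin 2) F)⁻¹ : GL (Fin 2) F) : Matrix (Fin 2) (Fin 2) F) = 1 := by
      rw [← Units.val_mul, mul_inv_cancel, Units.val_one]
    exact Matrix.det_ne_zero_of_right_inverse h1
  have hc2 : c ^ 2 = 1 := by
    rw [hb, Matrix.det_smul, Fintype.card_fin] at hdet
    have : (c ^ 2 - 1) * ((a : GL (Fin 2) F) : Matrix (Fin 2) (Fin 2) F).det = 0 := by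
      linear_combination -hdet
    exact sub_eq_zero.mp ((mul_eq_zero.mp this).resolve_right hdeta)
  have hc2' : c ^ 2 = 1 ^ 2 := by rw [hc2, one_pow]
  rcases sq_eq_sq_iff_eq_or_eq_neg.mp hc2' with h1 | h1
  · left; rw [hb, h1, one_smul]
  · right; rw [hb, h1, neg_one_smul]

/-- fibres of `(tr, det)` meet each coset of the scalars in at most two elements. -/
lemma card_fibre_coset_le {G : Subgroup (GL (Fin 2) F)}
    [DecidableEq (G ⧸ scalarSubgroup G)] (S : Finset G)
    (hS : ∀ a ∈ S, ∀ b ∈ S, ((a : GL (Fin 2) F) : Matrix (Fin 2) (Fin 2) F).det =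
      ((b : GL (Fin 2) F) : Matrix (Fin 2) (Fin 2) F).det)
    (q : G ⧸ scalarSubgroup G) :
    (S.filter (fun x => (QuotientGroup.mk x : G ⧸ scalarSubgroup G) = q)).card ≤ 2 := by
  by_contra hcon
  rw [not_le, Finset.two_lt_card] at hcon
  obtain ⟨a, ha, b, hb, c, hc, hab, hac, hbc⟩ := hcon
  simp only [Finset.mem_filter] at ha hb hc
  have hab' : a⁻¹ * b ∈ scalarSubgroup G := QuotientGroup.eq.mp (ha.2.trans hb.2.symm)
  have hac' : a⁻¹ * c ∈ scalarSubgroup G := QuotientGroup.eq.mp (ha.2.trans hc.2.symm)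
  have e1 := eq_or_eq_neg_of_coset hab' (hS a ha.1 b hb.1)
  have e2 := eq_or_eq_neg_of_coset hac' (hS a ha.1 c hc.1)
  rcases e1 with e1 | e1
  · exact hab (Subtype.ext (Units.ext e1.symm))
  · rcases e2 with e2 | e2
    · exact hac (Subtype.ext (Units.ext e2.symm))
    · exact hbc (Subtype.ext (Units.ext (e1.trans e2.symm)))

end Scalar

/-- The trichotomy statement (piece FI-2 of the finite image lemma; `FI.TrichotomyStatement` at
universe `0`), used as a hypothesis of the assembly. -/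
def Trichotomy0 : Prop :=
  ∀ (G : Type) [Group G] [Finite G] (Z : Subgroup G), Z ≤ Subgroup.center G →
    (∀ g : G, g ∉ Z → ∀ x y : G, Commute x g → Commute y g → Commute x y) →
    (∀ g : G, g ∉ Z → ∀ x y : G, Commute (x * g * x⁻¹) g → ¬ Commute x g →
      Commute (y * g * y⁻¹) g → ¬ Commute y g → x * g * x⁻¹ = y * g * y⁻¹) →
    (∀ x y : G, Commute x y) ∨
      (∃ g : G, g ∉ Z ∧ 2 * Nat.card (Subgroup.centralizer {g}) = Nat.card G) ∨
      Nat.card G ≤ 60 * Nat.card Z

/-- **FI-4 (assembly).** The finite image lemma of Deligne–Serre (Prop. 7.2), from the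
trichotomy statement FI-2. -/
theorem finiteImage_of (hTri : Trichotomy0) (η : ℝ) (M : ℕ) (hη : η < 1 / 2) :
    ∃ A : ℕ, ∀ (ℓ : ℕ) [Fact ℓ.Prime] (G : Subgroup (GL (Fin 2) (ZMod ℓ))),
      (ℓ ∣ Nat.card G → ∀ v : Fin 2 → ZMod ℓ, v ≠ 0 →
        ∃ g ∈ G, ∀ c : ZMod ℓ, (g : Matrix (Fin 2) (Fin 2) (ZMod ℓ)) *ᵥ v ≠ c • v) →
      (∃ H : Set (GL (Fin 2) (ZMod ℓ)), H ⊆ (G : Set (GL (Fin 2) (ZMod ℓ))) ∧
        (1 - η) * (Nat.card G : ℝ) ≤ (Nat.card H : ℝ) ∧
        ∃ P : Finset (ZMod ℓ × ZMod ℓ), P.card ≤ M ∧ ∀ h ∈ H, td h ∈ P) →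
      Nat.card G ≤ A := by
  classical
  refine ⟨max (4 * M * (4 * M + 1) ^ 2) (max (240 * M) ⌈4 * (M : ℝ) / (1 - 2 * η)⌉₊), ?_⟩
  intro ℓ _ G hns hC
  obtain ⟨H, hHG, hHcard, P, hPM, hHP⟩ := hC
  have hℓ : ℓ.Prime := Fact.out
  have : Fintype G := Fintype.ofFinite G
  -- the finset of elements of `H`, inside `G`
  set HG : Finset G := Finset.univ.filter (fun x : G => (x : GL (Fin 2) (ZMod ℓ)) ∈ H) with hHGdef
  have hHGcard : Nat.card H = HG.card := by
    have e : H ≃ {x : G // (x : GL (Fin 2) (ZMod ℓ)) ∈ H} :=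
      { toFun := fun h => ⟨⟨h.1, hHG h.2⟩, h.2⟩
        invFun := fun x => ⟨x.1.1, x.2⟩
        left_inv := fun h => rfl
        right_inv := fun x => rfl }
    rw [Nat.card_congr e, Nat.card_eq_fintype_card, Fintype.card_subtype]
  have hHP' : ∀ x ∈ HG, td (x : GL (Fin 2) (ZMod ℓ)) ∈ P := by
    intro x hx
    exact hHP _ (Finset.mem_filter.mp hx).2
  have hinj : Function.Injective (fun x : G => (x : GL (Fin 2) (ZMod ℓ))) :=
    Subtype.val_injective
  have hη1 : (1 : ℝ) / 2 < 1 - η := by linarith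
  have hG0 : (0 : ℝ) ≤ (Nat.card G : ℝ) := Nat.cast_nonneg _
  -- the basic principle
  have hprinc : ∀ c : ℕ, HG.card ≤ c → Nat.card G ≤ 2 * c := by
    intro c hc
    have h1 : (1 - η) * (Nat.card G : ℝ) ≤ (c : ℝ) := by
      refine hHcard.trans ?_
      rw [hHGcard]
      exact_mod_cast hc
    have h2 : (Nat.card G : ℝ) ≤ 2 * (c : ℝ) := by nlinarith
    exact_mod_cast h2
  -- a bound valid for all `ℓ`
  have hall : Nat.card G ≤ 4 * M * ℓ ^ 2 := by
    have h1 : HG.card ≤ 2 * ℓ ^ 2 * P.card :=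
      card_le_of_fibre_le HG (fun x : G => td (x : GL (Fin 2) (ZMod ℓ))) P (2 * ℓ ^ 2) hHP'
        (fun p _ => card_fibre_le _ hinj HG p)
    have h2 := hprinc (2 * ℓ ^ 2 * M) (h1.trans (Nat.mul_le_mul_left _ hPM))
    calc Nat.card G ≤ 2 * (2 * ℓ ^ 2 * M) := h2
      _ = 4 * M * ℓ ^ 2 := by ring
  by_cases hdiv : ℓ ∣ Nat.card G
  · -- the case `ℓ ∣ |G|`
    have h1 := transvection_card_le ℓ G hdiv (hns hdiv)
    have hℓ' : ℓ ≤ 4 * M + 1 := by
      have hpos : 0 < ℓ ^ 2 := pow_pos hℓ.pos 2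
      have h2 : ℓ ^ 2 * (ℓ - 1) ≤ ℓ ^ 2 * (4 * M) := by
        calc ℓ ^ 2 * (ℓ - 1) ≤ Nat.card G := h1
          _ ≤ 4 * M * ℓ ^ 2 := hall
          _ = ℓ ^ 2 * (4 * M) := by ring
      have h3 := Nat.le_of_mul_le_mul_left h2 hpos
      omega
    calc Nat.card G ≤ 4 * M * ℓ ^ 2 := hall
      _ ≤ 4 * M * (4 * M + 1) ^ 2 := by gcongr
      _ ≤ _ := le_max_left _ _
  · by_cases h2 : ℓ = 2
    · -- `ℓ = 2`
      calc Nat.card G ≤ 4 * M * ℓ ^ 2 := hall
        _ = 16 * M := by rw [h2]; ring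
        _ ≤ 240 * M := by omega
        _ ≤ _ := (le_max_left _ _).trans (le_max_right _ _)
    · -- `ℓ` odd, `ℓ ∤ |G|`
      have h2F : (2 : ZMod ℓ) ≠ 0 := by
        intro h
        have h' : ((2 : ℕ) : ZMod ℓ) = 0 := by exact_mod_cast h
        have hdvd := (ZMod.natCast_eq_zero_iff 2 ℓ).mp h'
        exact h2 ((Nat.prime_dvd_prime_iff_eq hℓ Nat.prime_two).mp hdvd)
      have hdisc : ∀ g : G, ¬ IsScalar (g : GL (Fin 2) (ZMod ℓ)) →
          ((g : GL (Fin 2) (ZMod ℓ)) : Matrix (Fin 2) (Fin 2) (ZMod ℓ)).trace ^ 2 -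
            4 * ((g : GL (Fin 2) (ZMod ℓ)) : Matrix (Fin 2) (Fin 2) (ZMod ℓ)).det ≠ 0 := by
        intro g hg hd
        have h1 := disc_order ℓ (g : GL (Fin 2) (ZMod ℓ)) (not_isScalar_iff.mp hg) hd
        apply hdiv
        rw [Subgroup.orderOf_coe] at h1
        exact h1.trans (orderOf_dvd_natCard g)
      -- the bound in case (iii)
      have hcase3 : Nat.card G ≤ 60 * Nat.card (scalarSubgroup G) → Nat.card G ≤ 240 * M := by
        intro h60
        have hQ : Nat.card (G ⧸ scalarSubgroup G) ≤ 60 := by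
          have h1 := Subgroup.card_eq_card_quotient_mul_card_subgroup (scalarSubgroup G)
          have hZpos : 0 < Nat.card (scalarSubgroup G) := Nat.card_pos
          rw [h1] at h60
          exact Nat.le_of_mul_le_mul_right h60 hZpos
        have : Fintype (G ⧸ scalarSubgroup G) := Fintype.ofFinite _
        have hfib : ∀ p ∈ P,
            (HG.filter (fun x : G => td (x : GL (Fin 2) (ZMod ℓ)) = p)).card ≤ 120 := by
          intro p _
          have h1 := card_le_of_fibre_le
            (HG.filter (fun x : G => td (x : GL (Fin 2) (ZMod ℓ)) = p))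
            (fun x : G => (QuotientGroup.mk x : G ⧸ scalarSubgroup G)) Finset.univ 2
            (fun _ _ => Finset.mem_univ _)
            (fun q _ => card_fibre_coset_le _ (by
              intro a ha b hb
              have ha' := (Finset.mem_filter.mp ha).2
              have hb' := (Finset.mem_filter.mp hb).2
              exact congrArg Prod.snd (ha'.trans hb'.symm)) q)
          rw [Finset.card_univ, ← Nat.card_eq_fintype_card] at h1
          calc _ ≤ 2 * Nat.card (G ⧸ scalarSubgroup G) := h1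
            _ ≤ 120 := by omega
        have h1 : HG.card ≤ 120 * P.card :=
          card_le_of_fibre_le HG (fun x : G => td (x : GL (Fin 2) (ZMod ℓ))) P 120 hHP' hfib
        have h2 := hprinc (120 * M) (h1.trans (Nat.mul_le_mul_left _ hPM))
        omega
      -- the bound from a commutant containing `S`
      have hcomm : ∀ (g : G), ¬ IsScalar (g : GL (Fin 2) (ZMod ℓ)) → ∀ S : Finset G, S ⊆ HG →
          (∀ x ∈ S, Commute x g) → S.card ≤ 2 * M := by
        intro g hg S hS hSg
        have h1 : S.card ≤ 2 * P.card :=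
          card_le_of_fibre_le S (fun x : G => td (x : GL (Fin 2) (ZMod ℓ))) P 2
            (fun x hx => hHP' x (hS hx))
            (fun p _ => card_fibre_commutant_le h2F hg (hdisc g hg) _ hinj S
              (fun x hx => commute_subgroup.mp (hSg x hx)) p)
        exact h1.trans (Nat.mul_le_mul_left _ hPM)
      -- the trichotomy
      have tri := hTri G (scalarSubgroup G) (scalarSubgroup_le_center G)
        (by
          intro g hg x y hx hy
          rw [mem_scalarSubgroup] at hg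
          rw [commute_subgroup] at hx hy ⊢
          rw [← commute_coe] at hx hy ⊢
          exact commutant_commute _ _ _ (not_isScalar_iff.mp hg) hx hy)
        (by
          intro g hg x y hx hnx hy hny
          rw [mem_scalarSubgroup] at hg
          rw [commute_subgroup] at hx hnx hy hny
          have hx' := commute_coe.mpr hx
          have hy' := commute_coe.mpr hy
          have t1 := td_conj (x : GL (Fin 2) (ZMod ℓ)) (g : GL (Fin 2) (ZMod ℓ))
          have t2 := td_conj (y : GL (Fin 2) (ZMod ℓ)) (g : GL (Fin 2) (ZMod ℓ))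
          simp only [Subgroup.coe_mul, Subgroup.coe_inv] at hx' hy'
          rcases torus_fibre h2F ((g : GL (Fin 2) (ZMod ℓ)) : Matrix (Fin 2) (Fin 2) (ZMod ℓ))
            ((g : GL (Fin 2) (ZMod ℓ)) : Matrix (Fin 2) (Fin 2) (ZMod ℓ))
            (((x : GL (Fin 2) (ZMod ℓ)) * g * (x : GL (Fin 2) (ZMod ℓ))⁻¹ :
              GL (Fin 2) (ZMod ℓ)) : Matrix (Fin 2) (Fin 2) (ZMod ℓ))
            (((y : GL (Fin 2) (ZMod ℓ)) * g * (y : GL (Fin 2) (ZMod ℓ))⁻¹ :
              GL (Fin 2) (ZMod ℓ)) : Matrix (Fin 2) (Fin 2) (ZMod ℓ))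
            (not_isScalar_iff.mp hg) (hdisc g hg) (Commute.refl _) hx' hy'
            (congrArg Prod.fst t1).symm (congrArg Prod.snd t1).symm
            (congrArg Prod.fst t2).symm (congrArg Prod.snd t2).symm with h | h | h
          · exfalso
            apply hnx
            have h' : (g : GL (Fin 2) (ZMod ℓ)) =
                (x : GL (Fin 2) (ZMod ℓ)) * g * (x : GL (Fin 2) (ZMod ℓ))⁻¹ := Units.ext h
            have h'' : (x : GL (Fin 2) (ZMod ℓ)) * g = g * x := by
              conv_rhs => rw [h']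
              simp
            exact h''
          · exfalso
            apply hny
            have h' : (g : GL (Fin 2) (ZMod ℓ)) =
                (y : GL (Fin 2) (ZMod ℓ)) * g * (y : GL (Fin 2) (ZMod ℓ))⁻¹ := Units.ext h
            have h'' : (y : GL (Fin 2) (ZMod ℓ)) * g = g * y := by
              conv_rhs => rw [h']
              simp
            exact h''
          · apply Subtype.ext
            simp only [Subgroup.coe_mul, Subgroup.coe_inv]
            exact Units.ext h)
      rcases tri with hab | ⟨g, hgZ, hidx⟩ | h60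
      · -- `G` abelian
        by_cases hsc : ∀ g : G, IsScalar (g : GL (Fin 2) (ZMod ℓ))
        · have htop : scalarSubgroup G = ⊤ := by
            ext g
            simp only [Subgroup.mem_top, iff_true]
            exact hsc g
          have : Nat.card G ≤ 60 * Nat.card (scalarSubgroup G) := by
            rw [htop, Subgroup.card_top]
            omega
          exact (hcase3 this).trans ((le_max_left _ _).trans (le_max_right _ _))
        · obtain ⟨g, hg⟩ := not_forall.mp hsc
          have h1 := hcomm g hg HG (Finset.Subset.refl _) (fun x _ => hab x g)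
          have h2 := hprinc _ h1
          calc Nat.card G ≤ 2 * (2 * M) := h2
            _ ≤ 240 * M := by omega
            _ ≤ _ := (le_max_left _ _).trans (le_max_right _ _)
      · -- a centraliser of index two
        rw [mem_scalarSubgroup] at hgZ
        set C : Subgroup G := Subgroup.centralizer {g} with hCdef
        have hin : (HG.filter (fun x => x ∈ C)).card ≤ 2 * M := by
          refine hcomm g hgZ _ (Finset.filter_subset _ _) ?_
          intro x hx
          have hxC := (Finset.mem_filter.mp hx).2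
          rw [hCdef, Subgroup.mem_centralizer_iff] at hxC
          exact (hxC g (Set.mem_singleton g)).symm
        have hout : (HG.filter (fun x => ¬ x ∈ C)).card ≤ Nat.card C := by
          have h1 : (HG.filter (fun x => ¬ x ∈ C)).card ≤
              (Finset.univ.filter (fun x : G => ¬ x ∈ C)).card :=
            Finset.card_le_card (fun x hx => by
              simp only [Finset.mem_filter, Finset.mem_univ, true_and] at hx ⊢
              exact hx.2)
          have h2 : (Finset.univ.filter (fun x : G => x ∈ C)).card +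
              (Finset.univ.filter (fun x : G => ¬ x ∈ C)).card = Fintype.card G := by
            rw [Finset.card_filter_add_card_filter_not, Finset.card_univ]
          have h3 : (Finset.univ.filter (fun x : G => x ∈ C)).card = Nat.card C := by
            rw [Nat.card_eq_fintype_card, Fintype.card_subtype]
          rw [Nat.card_eq_fintype_card (α := G)] at hidx
          omega
        have hsplit : HG.card = (HG.filter (fun x => x ∈ C)).card +
            (HG.filter (fun x => ¬ x ∈ C)).card :=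
          (Finset.card_filter_add_card_filter_not _).symm
        have hHGle : HG.card ≤ 2 * M + Nat.card C := by omega
        -- real arithmetic
        have hκ : 0 < 1 - 2 * η := by linarith
        have h1 : (1 - η) * (Nat.card G : ℝ) ≤ 2 * (M : ℝ) + (Nat.card C : ℝ) := by
          refine hHcard.trans ?_
          rw [hHGcard]
          exact_mod_cast hHGle
        have h2 : (Nat.card G : ℝ) = 2 * (Nat.card C : ℝ) := by exact_mod_cast hidx.symm
        have h3 : (Nat.card G : ℝ) ≤ 4 * (M : ℝ) / (1 - 2 * η) := by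
          rw [le_div_iff₀ hκ]
          nlinarith
        have h4 : Nat.card G ≤ ⌈4 * (M : ℝ) / (1 - 2 * η)⌉₊ := by
          have := h3.trans (Nat.le_ceil _)
          exact_mod_cast this
        exact h4.trans ((le_max_right _ _).trans (le_max_right _ _))
      · exact (hcase3 h60).trans ((le_max_left _ _).trans (le_max_right _ _))

section Semisimple

variable {ℓ : ℕ} [Fact ℓ.Prime]

lemma pow_mulVec_of_eigen {M : Matrix (Fin 2) (Fin 2) (ZMod ℓ)} {v : Fin 2 → ZMod ℓ}
    {c : ZMod ℓ} (h : M *ᵥ v = c • v) (k : ℕ) : (M ^ k) *ᵥ v = c ^ k • v := by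
  induction k with
  | zero => simp
  | succ k ih =>
    rw [pow_succ, ← mulVec_mulVec, h, mulVec_smul, ih, smul_smul, pow_succ, mul_comm]

/-- an element of order `ℓ` has no eigenbasis. -/
lemma eigen_eq_one_of_orderOf {u : GL (Fin 2) (ZMod ℓ)} (hu : orderOf u = ℓ)
    {v : Fin 2 → ZMod ℓ} (hv : v ≠ 0) {c : ZMod ℓ}
    (h : (u : Matrix (Fin 2) (Fin 2) (ZMod ℓ)) *ᵥ v = c • v) : c = 1 := by
  have hUl : u ^ ℓ = 1 := by
    have := pow_orderOf_eq_one u
    rwa [hu] at this
  have h1 := pow_mulVec_of_eigen h ℓ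
  rw [← Units.val_pow_eq_pow_val, hUl, Units.val_one, one_mulVec, ZMod.pow_card] at h1
  by_contra hc
  apply hv
  have h2 : (1 - c) • v = 0 := by
    rw [sub_smul, one_smul, ← h1, sub_self]
  rcases smul_eq_zero.mp h2 with h3 | h3
  · exact absurd (sub_eq_zero.mp h3).symm hc
  · exact h3

/-- semisimplicity implies: if `ℓ ∣ |G|` then `G` stabilises no line. -/
lemma noStableLine_of_split (G : Subgroup (GL (Fin 2) (ZMod ℓ)))
    (hss : ∀ v : Fin 2 → ZMod ℓ, v ≠ 0 →
      (∀ g ∈ G, ∃ c : ZMod ℓ, (g : Matrix (Fin 2) (Fin 2) (ZMod ℓ)) *ᵥ v = c • v) →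
      ∃ w : Fin 2 → ZMod ℓ, (∀ c : ZMod ℓ, w ≠ c • v) ∧
        ∀ g ∈ G, ∃ c : ZMod ℓ, (g : Matrix (Fin 2) (Fin 2) (ZMod ℓ)) *ᵥ w = c • w)
    (hdiv : ℓ ∣ Nat.card G) (v : Fin 2 → ZMod ℓ) (hv : v ≠ 0) :
    ∃ g ∈ G, ∀ c : ZMod ℓ, (g : Matrix (Fin 2) (Fin 2) (ZMod ℓ)) *ᵥ v ≠ c • v := by
  have hℓ : ℓ.Prime := Fact.out
  by_contra hcon
  have hst : ∀ g ∈ G, ∃ c : ZMod ℓ, (g : Matrix (Fin 2) (Fin 2) (ZMod ℓ)) *ᵥ v = c • v := by
    intro g hg
    by_contra h
    exact hcon ⟨g, hg, fun c hc => h ⟨c, hc⟩⟩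
  obtain ⟨w, hw, hstw⟩ := hss v hv hst
  have hw0 : w ≠ 0 := by
    intro h
    apply hw 0
    rw [h, zero_smul]
  obtain ⟨u, hu⟩ := exists_prime_orderOf_dvd_card' ℓ hdiv
  have hUord : orderOf (u : GL (Fin 2) (ZMod ℓ)) = ℓ := by
    rw [Subgroup.orderOf_coe]; exact hu
  obtain ⟨c, hc⟩ := hst u u.2
  obtain ⟨c', hc'⟩ := hstw u u.2
  have e1 := eigen_eq_one_of_orderOf hUord hv hc
  have e2 := eigen_eq_one_of_orderOf hUord hw0 hc'
  rw [e1, one_smul] at hc
  rw [e2, one_smul] at hc'
  have hD := det_ne_zero_of_not_smul hv hw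
  have h1 : ((u : GL (Fin 2) (ZMod ℓ)) : Matrix (Fin 2) (Fin 2) (ZMod ℓ)) * colMat v w =
      colMat v w := by
    rw [mul_colMat, hc, hc']
  have hdet : IsUnit (colMat v w).det := by
    rw [det_colMat]
    exact isUnit_iff_ne_zero.mpr hD
  have h2 : ((u : GL (Fin 2) (ZMod ℓ)) : Matrix (Fin 2) (Fin 2) (ZMod ℓ)) = 1 := by
    have := congrArg (· * (colMat v w)⁻¹) h1
    simpa [Matrix.mul_assoc, Matrix.mul_nonsing_inv _ hdet] using this
  have h3 : (u : GL (Fin 2) (ZMod ℓ)) = 1 := Units.ext h2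
  rw [h3, orderOf_one] at hUord
  exact hℓ.one_lt.ne hUord

end Semisimple

/-- **FI-4, semisimple form.** The finite image lemma for semisimple subgroups. -/
theorem finiteImage_semisimple_of (hTri : Trichotomy0) (η : ℝ) (M : ℕ) (hη : η < 1 / 2) :
    ∃ A : ℕ, ∀ (ℓ : ℕ) [Fact ℓ.Prime] (G : Subgroup (GL (Fin 2) (ZMod ℓ))),
      (∀ v : Fin 2 → ZMod ℓ, v ≠ 0 →
        (∀ g ∈ G, ∃ c : ZMod ℓ, (g : Matrix (Fin 2) (Fin 2) (ZMod ℓ)) *ᵥ v = c • v) →
        ∃ w : Fin 2 → ZMod ℓ, (∀ c : ZMod ℓ, w ≠ c • v) ∧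
          ∀ g ∈ G, ∃ c : ZMod ℓ, (g : Matrix (Fin 2) (Fin 2) (ZMod ℓ)) *ᵥ w = c • w) →
      (∃ H : Set (GL (Fin 2) (ZMod ℓ)), H ⊆ (G : Set (GL (Fin 2) (ZMod ℓ))) ∧
        (1 - η) * (Nat.card G : ℝ) ≤ (Nat.card H : ℝ) ∧
        ∃ P : Finset (ZMod ℓ × ZMod ℓ), P.card ≤ M ∧ ∀ h ∈ H, td h ∈ P) →
      Nat.card G ≤ A := by
  obtain ⟨A, hA⟩ := finiteImage_of hTri η M hη
  exact ⟨A, fun ℓ _ G hss hC => hA ℓ G (fun hdiv => noStableLine_of_split G hss hdiv) hC⟩

end Fermat.Agent.S48.H468
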