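import Fermat.Agent.S48.Top.Spec
import Fermat.Agent.S48.H948.Basic

/-!
# S48 (Deligne–Serre) / glue piece BND (helper468)

`boundedImagePiece : Top.BoundedImagePiece`, i.e.
`ResidualMatStatement → ValuesStatement → ChebDensityStatement → FiniteImageStatement →
BoundedImageStatement` (Deligne–Serre §8, first half): the images of the mod-`ℓ`
representations have bounded order.

Proof: `Y` from VAL with `η = 1/4`; `P` = the pairs `(φ a, φ e)`, `a ∈ Y`, `e` a value of `ε`;
`H = {g ∈ im r : trDet g ∈ P}`.  A prime `p ∤ Nℓ` with a Frobenius outside `H` has `a_p ∉ Y`, so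
by Chebotarev `|im r ∖ H| / |im r| ≤ 1/4`, and the finite image lemma applies.
-/

set_option autoImplicit false

open CongruenceSubgroup
open scoped MatrixGroups
open Matrix

namespace Fermat.Agent.S48.H468

open Fermat.Agent.S48.Top
open Fermat.Agent.Lib.Cheb.Spec Fermat.Agent.Lib.Cheb.SpecQ

/-- (BND) -/
theorem boundedImagePiece : BoundedImagePiece := by
  classical
  intro hMat hVal hCheb hFI N _ ε f hf
  obtain ⟨B₀, hB₀⟩ := hMat N ε f hf
  obtain ⟨Y, hY⟩ := hVal N ε f hf (1 / 4) (by norm_num)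
  -- the finite sets of algebraic integers
  have hinj : Function.Injective (fun a : Zbar => (a : ℂ)) := Subtype.val_injective
  set Yz : Finset Zbar := Y.preimage (fun a : Zbar => (a : ℂ)) hinj.injOn with hYz
  set Ez : Finset Zbar :=
    ((Finset.univ : Finset (ZMod N)).image (fun x => ε x)).preimage
      (fun a : Zbar => (a : ℂ)) hinj.injOn with hEz
  obtain ⟨A, hA⟩ := hFI (1 / 4) (Yz.card * Ez.card) (by norm_num)
  refine ⟨A, max B₀ A, ?_⟩
  intro ℓ hℓ hlt k _ _ φ
  obtain ⟨r, hfin, hss, hatt⟩ := hB₀ ℓ hℓ (lt_of_le_of_lt (le_max_left _ _) hlt) k φ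
  have hAℓ : A < ℓ := lt_of_le_of_lt (le_max_right _ _) hlt
  have hfinR : Finite r.range := H948.finite_range_of_finiteLevel r hfin
  refine ⟨r, hfin, hatt, hfinR, ?_⟩
  -- the set of pairs
  set P : Finset (k × k) := (Yz ×ˢ Ez).image (fun x => (φ x.1, φ x.2)) with hP
  have hPcard : P.card ≤ Yz.card * Ez.card := by
    refine Finset.card_image_le.trans ?_
    rw [Finset.card_product]
  -- the bad set of primes
  set Xbad : Set ℕ := {p : ℕ | p.Prime ∧ ¬ p ∣ N ∧ ModularFormClass.qCoeff f p ∉ Y} with hXbad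
  -- Chebotarev for the complement
  obtain ⟨E, hE, hker⟩ := hfin
  have hNℓ : N * ℓ ≠ 0 := Nat.mul_ne_zero (NeZero.ne N) hℓ.ne_zero
  have hdens := hCheb (GL (Fin 2) k) r E hE hker {g | trDet g ∉ P} (N * ℓ).primeFactors
  have hsub : frobPrimesHom r {g | trDet g ∉ P} (N * ℓ).primeFactors ⊆ Xbad := by
    rintro p ⟨hp, hpS, V, τ, hV, hτ, -, hC⟩
    have hpN : ¬ p ∣ N * ℓ := by
      intro hdvd
      exact hpS (Nat.mem_primeFactors.mpr ⟨hp, hdvd, hNℓ⟩)
    have hpN' : ¬ p ∣ N := fun h => hpN (Dvd.dvd.mul_right h ℓ)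
    refine ⟨hp, hpN', fun haY => ?_⟩
    obtain ⟨-, hfrob⟩ := hatt p hp hpN V hV
    obtain ⟨a, e, ha, he, htr, hdet⟩ := hfrob τ hτ
    apply hC
    rw [hP, Finset.mem_image]
    refine ⟨(a, e), ?_, ?_⟩
    · rw [Finset.mem_product]
      refine ⟨?_, ?_⟩
      · rw [hYz, Finset.mem_preimage, ha]
        exact haY
      · rw [hEz, Finset.mem_preimage, he]
        exact Finset.mem_image_of_mem _ (Finset.mem_univ _)
    · unfold trDet
      rw [htr, hdet]
  have hle := H948.le_of_lowerDensity_of_upperDensity hdens hsub hY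
  -- cardinalities
  have hfinS : (Set.range r).Finite := by
    have : Finite (Set.range r) := hfinR
    exact Set.toFinite _
  have hcardG : Nat.card r.range = (Set.range r).ncard := by
    show Nat.card ↥(Set.range r) = _
    exact _root_.Nat.card_coe_set_eq _
  have hGpos : 0 < (Set.range r).ncard := by
    rw [← hcardG]
    exact Nat.card_pos
  have hsplit := Set.ncard_inter_add_ncard_sdiff_eq_ncard (Set.range r) {g | trDet g ∈ P} hfinS
  have hCeq : {g | trDet g ∉ P} ∩ Set.range r = Set.range r \ {g | trDet g ∈ P} := by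
    ext g
    constructor
    · rintro ⟨h1, h2⟩
      exact ⟨h2, h1⟩
    · rintro ⟨h1, h2⟩
      exact ⟨h2, h1⟩
  rw [hCeq, _root_.Nat.card_coe_set_eq, _root_.Nat.card_coe_set_eq] at hle
  have hGposR : (0 : ℝ) < ((Set.range r).ncard : ℝ) := by exact_mod_cast hGpos
  have hC4 : ((Set.range r \ {g | trDet g ∈ P}).ncard : ℝ) ≤ ((Set.range r).ncard : ℝ) / 4 := by
    rw [div_le_iff₀ hGposR] at hle
    linarith
  have hH : (1 - 1 / 4 : ℝ) * ((Set.range r).ncard : ℝ) ≤
      ((Set.range r ∩ {g | trDet g ∈ P}).ncard : ℝ) := by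
    have : ((Set.range r ∩ {g | trDet g ∈ P}).ncard : ℝ) +
        ((Set.range r \ {g | trDet g ∈ P}).ncard : ℝ) = ((Set.range r).ncard : ℝ) := by
      exact_mod_cast hsplit
    linarith
  -- the finite image lemma
  refine hA ℓ hℓ hAℓ k r.range hfinR hss ?_
  refine ⟨Set.range r ∩ {g | trDet g ∈ P}, ?_, ?_, P, hPcard, ?_⟩
  · intro g hg
    rw [MonoidHom.coe_range]
    exact hg.1
  · rw [hcardG, _root_.Nat.card_coe_set_eq]
    exact hH
  · intro h hh
    exact hh.2

end Fermat.Agent.S48.H468
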