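import Fermat.Agent.S48.Top.Spec

/-!
# S48 (Deligne–Serre) / glue piece CLIFT (helper468)

`complexLiftPiece : Top.ComplexLiftPiece`, i.e.
`BoundedImageStatement → LiftStatement → ComplexLiftStatement`: the mod-`ℓ` representations of
bounded image lift to complex representations of bounded image, congruent to `(f, ε)`.
-/

set_option autoImplicit false

open CongruenceSubgroup
open scoped MatrixGroups
open Matrix

namespace Fermat.Agent.S48.H468

open Fermat.Agent.S48.Top
open Fermat.Agent.Lib.Cheb.Spec Fermat.Agent.Lib.Cheb.SpecQ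

/-- (CLIFT) -/
theorem complexLiftPiece : ComplexLiftPiece := by
  intro hB hL N _ ε f hf
  obtain ⟨A, B, hAB⟩ := hB N ε f hf
  refine ⟨A, max A B, ?_⟩
  intro ℓ hℓ hlt
  obtain ⟨k, instF, instC, φ, hlift⟩ := hL ℓ hℓ
  obtain ⟨r, hfin, hatt, hfinR, hcard⟩ :=
    hAB ℓ hℓ (lt_of_le_of_lt (le_max_right _ _) hlt) k φ
  have hAℓ : A < ℓ := lt_of_le_of_lt (le_max_left _ _) hlt
  have hndvd : ¬ ℓ ∣ Nat.card r.range := by
    intro h
    have hpos : 0 < Nat.card r.range := Nat.card_pos
    have := Nat.le_of_dvd hpos h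
    omega
  obtain ⟨R, hR⟩ := hlift r.range hndvd r.range.subtype
  refine ⟨k, instF, instC, φ, R.comp r.rangeRestrict, ?_, ?_, ?_, ?_⟩
  · -- finite level
    obtain ⟨L, hLfin, hker⟩ := hfin
    refine ⟨L, hLfin, fun σ hσ => ?_⟩
    have h1 : r.rangeRestrict σ = 1 := Subtype.ext (hker σ hσ)
    rw [MonoidHom.comp_apply, h1, map_one]
  · -- congruence
    intro p hp hpN V hV
    obtain ⟨hin, hfrob⟩ := hatt p hp hpN V hV
    refine ⟨fun σ hσ => ?_, fun σ hσ => ?_⟩
    · have h1 : r.rangeRestrict σ = 1 := Subtype.ext (hin σ hσ)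
      rw [MonoidHom.comp_apply, h1, map_one]
    · obtain ⟨a, e, ha, he, htr, hdet⟩ := hfrob σ hσ
      obtain ⟨t, d, ht, hd, hφt, hφd⟩ := hR (r.rangeRestrict σ)
      refine ⟨a, e, t, d, ha, he, ht, hd, ?_, ?_⟩
      · rw [hφt, ← htr]; rfl
      · rw [hφd, ← hdet]; rfl
  · -- finiteness
    have hsurj : Function.Surjective
        (fun x : r.range => (⟨R x, ⟨(Classical.choose x.2), by
          have := Classical.choose_spec x.2
          rw [MonoidHom.comp_apply]
          congr 1
          exact Subtype.ext this⟩⟩ : (R.comp r.rangeRestrict).range)) := by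
      rintro ⟨y, σ, rfl⟩
      exact ⟨r.rangeRestrict σ, rfl⟩
    exact Finite.of_surjective _ hsurj
  · have hsurj : Function.Surjective
        (fun x : r.range => (⟨R x, ⟨(Classical.choose x.2), by
          have := Classical.choose_spec x.2
          rw [MonoidHom.comp_apply]
          congr 1
          exact Subtype.ext this⟩⟩ : (R.comp r.rangeRestrict).range)) := by
      rintro ⟨y, σ, rfl⟩
      exact ⟨r.rangeRestrict σ, rfl⟩
    exact (Nat.card_le_card_of_surjective _ hsurj).trans hcard

end Fermat.Agent.S48.H468
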