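import Mathlib

/-!
# S48 (Deligne–Serre) / piece FI-3b (helper468): fibres of `(trace, det)` on `GL₂`

At most `2 ℓ²` elements of `GL₂(𝔽_ℓ)` have a given trace and determinant
(`fibre_card_le`, the exact shape of `FI.FibreStatement` with `FI.trDet` unfolded).
More generally for a finite field `F`: at most `2 |F|²`.
-/

namespace Fermat.Agent.S48.H468

open Matrix

section Field

variable {F : Type*} [Field F]

/-- a chosen root of `X² - tX + δ` (if there is one). -/
noncomputable def chosenRoot (t δ : F) : F :=
  open Classical in if h : ∃ r : F, r * r - t * r + δ = 0 then h.choose else 0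

lemma chosenRoot_spec {t δ : F} (h : ∃ r : F, r * r - t * r + δ = 0) :
    chosenRoot t δ * chosenRoot t δ - t * chosenRoot t δ + δ = 0 := by
  unfold chosenRoot
  rw [dif_pos h]
  exact h.choose_spec

lemma eq_chosenRoot_or {t δ a : F} (h : a * a - t * a + δ = 0) :
    a = chosenRoot t δ ∨ a = t - chosenRoot t δ := by
  have h0 := chosenRoot_spec ⟨a, h⟩
  have h1 : (a - chosenRoot t δ) * (a - (t - chosenRoot t δ)) = 0 := by
    linear_combination h - h0
  rcases mul_eq_zero.mp h1 with h2 | h2
  · exact Or.inl (sub_eq_zero.mp h2)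
  · exact Or.inr (sub_eq_zero.mp h2)

/-- the encoding of a matrix with given trace and determinant. -/
noncomputable def fibreCode (t δ : F) (M : Matrix (Fin 2) (Fin 2) F) : Bool × F × F :=
  open Classical in
  if M 0 1 ≠ 0 then (false, M 0 0, M 0 1)
  else (true, if M 0 0 = chosenRoot t δ then 0 else 1, M 1 0)

lemma fibreCode_injOn (t δ : F) {M M' : Matrix (Fin 2) (Fin 2) F}
    (hM : M.trace = t) (hM' : M'.trace = t) (hd : M.det = δ) (hd' : M'.det = δ)
    (h : fibreCode t δ M = fibreCode t δ M') : M = M' := by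
  classical
  rw [Matrix.trace_fin_two] at hM hM'
  rw [Matrix.det_fin_two] at hd hd'
  have key : M 0 0 = M' 0 0 ∧ M 0 1 = M' 0 1 ∧ M 1 0 = M' 1 0 := by
    unfold fibreCode at h
    by_cases hb : M 0 1 ≠ 0
    · by_cases hb' : M' 0 1 ≠ 0
      · rw [if_pos hb, if_pos hb'] at h
        simp only [Prod.mk.injEq, true_and] at h
        obtain ⟨ha, hbb⟩ := h
        refine ⟨ha, hbb, ?_⟩
        have h1 : M 1 1 = M' 1 1 := by linear_combination hM - hM' - ha
        have h2 : M 0 1 * (M 1 0 - M' 1 0) = 0 := by
          rw [← ha, ← hbb, ← h1] at hd'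
          linear_combination hd' - hd
        rcases mul_eq_zero.mp h2 with h3 | h3
        · exact absurd h3 hb
        · exact sub_eq_zero.mp h3
      · rw [if_pos hb, if_neg hb'] at h
        simp at h
    · by_cases hb' : M' 0 1 ≠ 0
      · rw [if_neg hb, if_pos hb'] at h
        simp at h
      · rw [if_neg hb, if_neg hb'] at h
        simp only [Prod.mk.injEq, true_and] at h
        obtain ⟨hbit, hc⟩ := h
        have hb0 : M 0 1 = 0 := not_not.mp hb
        have hb0' : M' 0 1 = 0 := not_not.mp hb'
        refine ⟨?_, by rw [hb0, hb0'], hc⟩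
        have hr : M 0 0 * M 0 0 - t * M 0 0 + δ = 0 := by
          rw [hb0] at hd
          linear_combination -hd + M 0 0 * hM
        have hr' : M' 0 0 * M' 0 0 - t * M' 0 0 + δ = 0 := by
          rw [hb0'] at hd'
          linear_combination -hd' + M' 0 0 * hM'
        by_cases h0 : M 0 0 = chosenRoot t δ
        · by_cases h0' : M' 0 0 = chosenRoot t δ
          · rw [h0, h0']
          · rw [if_pos h0, if_neg h0'] at hbit
            exact absurd hbit zero_ne_one
        · by_cases h0' : M' 0 0 = chosenRoot t δ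
          · rw [if_neg h0, if_pos h0'] at hbit
            exact absurd hbit one_ne_zero
          · rcases eq_chosenRoot_or hr with h1 | h1
            · exact absurd h1 h0
            · rcases eq_chosenRoot_or hr' with h1' | h1'
              · exact absurd h1' h0'
              · rw [h1, h1']
  obtain ⟨ha, hb, hc⟩ := key
  have h1 : M 1 1 = M' 1 1 := by linear_combination hM - hM' - ha
  ext i j
  fin_cases i <;> fin_cases j
  · exact ha
  · exact hb
  · exact hc
  · exact h1

/-- At most `2 |F|²` elements of `GL₂(F)` have a given trace and determinant. -/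
theorem fibre_card_le_field [Finite F] (p : F × F) :
    Nat.card {g : GL (Fin 2) F // ((g : Matrix (Fin 2) (Fin 2) F).trace,
      (g : Matrix (Fin 2) (Fin 2) F).det) = p} ≤ 2 * Nat.card F ^ 2 := by
  classical
  have hinj : Function.Injective
      (fun g : {g : GL (Fin 2) F // ((g : Matrix (Fin 2) (Fin 2) F).trace,
        (g : Matrix (Fin 2) (Fin 2) F).det) = p} =>
        fibreCode p.1 p.2 ((g : GL (Fin 2) F) : Matrix (Fin 2) (Fin 2) F)) := by
    rintro ⟨g, hg⟩ ⟨g', hg'⟩ h
    have h1 := congrArg Prod.fst hg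
    have h2 := congrArg Prod.snd hg
    have h1' := congrArg Prod.fst hg'
    have h2' := congrArg Prod.snd hg'
    simp only at h1 h2 h1' h2'
    have := fibreCode_injOn p.1 p.2 h1 h1' h2 h2' h
    exact Subtype.ext (Units.ext this)
  have := Nat.card_le_card_of_injective _ hinj
  refine this.trans (le_of_eq ?_)
  rw [Nat.card_prod, Nat.card_prod, Nat.card_eq_fintype_card (α := Bool), Fintype.card_bool]
  ring

end Field

/-- **FI-3b.** At most `2 ℓ²` elements of `GL₂(𝔽_ℓ)` have a given trace and determinant. -/
theorem fibre_card_le (ℓ : ℕ) [Fact ℓ.Prime] (p : ZMod ℓ × ZMod ℓ) :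
    Nat.card {g : GL (Fin 2) (ZMod ℓ) // ((g : Matrix (Fin 2) (Fin 2) (ZMod ℓ)).trace,
      (g : Matrix (Fin 2) (Fin 2) (ZMod ℓ)).det) = p} ≤ 2 * ℓ ^ 2 := by
  have h := fibre_card_le_field (F := ZMod ℓ) p
  rwa [Nat.card_eq_fintype_card (α := ZMod ℓ), ZMod.card] at h

end Fermat.Agent.S48.H468
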